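/-
GATE-B / CASE A node A4 (helper84), file 2: the two-component frame of level `N' ℓ`, `ℓ ∥ N' ℓ`,
transported onto helper96's ring `BRingK0 N' ℓ A h` (finite chart) and helper30's
`BRingK0Inv N' ℓ A h` (chart at infinity).

helper80's `frame_j_two`, `frame_jinv_two` are stated for `chartRing (R0 A) (jK0 A N)` and
`chartRing (R0 A) (jK0 A N)⁻¹`; helper96/helper30 proved `BRingK0 = chartRing (R0 A) (jC …)`,
`BRingK0Inv = chartRing (R0 A) (jC …)⁻¹`.  Here the frame is moved along these equalities of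
subrings (`subst`), in a shape which does not mention the element `baseB` of the chart ring:

* `frame_of_eq`, `frameInv_of_eq` : for EVERY subring `Bj` equal to the chart ring: noetherian,
  integrally closed, fraction field `F₀`, and `f : Fin 2 → HtOne Bj` with `V1 (f i) = W2 i`,
  `b ∈ f i ↔ b ∈ 𝔪(W2 i)`, and every height-one prime containing (an element equal to) `ℓ` is some
  `f i`;
* `frame_BRingK0`, `frame_BRingK0Inv` : the instances.
-/
import Fermat.Agent.GL.Frame.FrameInstK0
import Fermat.Agent.GL.Red.BRingChart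
import Fermat.Agent.GL.Red.BRingK0InvChart
import Fermat.Agent.GL.Final.H5UnifK0

set_option autoImplicit false
set_option linter.unusedSectionVars false

noncomputable section

namespace Fermat.Agent.GB.A4.FrameTwo

open ModularCurve IsLocalRing
open Fermat.Agent.GJ.J1
open Fermat.Agent.GK.AL Fermat.Agent.GL.AL
open Fermat.Agent.GL.Val.GaussK0 Fermat.Agent.GL.Val.SecondK0 Fermat.Agent.GL.Val.OrthK0
open Fermat.Agent.GL.Val.L1eLower
open Fermat.Agent.GL.Frame.HeightOne Fermat.Agent.GL.Frame.Inst Fermat.Agent.GL.Frame.InstK0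
open Fermat.Agent.GL.BRingK0 Fermat.Agent.GL.BRingChart
open Fermat.Agent.GL.Red.BRingK0Inv Fermat.Agent.GL.Red.BRingK0InvChart
open Fermat.Agent.GL.Final.H5UnifK0
open Fermat.Agent.Common_helper32

attribute [local instance] Fermat.Agent.GL.Frame.InstK0.algSubringFullC

variable (A : ValuationSubring Qb) (N : ℕ) [NeZero N] {q : ℕ} (h : ExactDvd q N)
  (hA : A.LiesOverPrime q)

local notation "F0" => modularFunctionFieldFullC (K0 A) N

/-- the statement of the two-component frame on a subring `Bj` of `K₀(X₀(N))` -/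
def IsFrameTwo (Bj : Subring F0) : Prop :=
  ∃ (_ : IsNoetherianRing Bj) (_ : IsIntegrallyClosed Bj) (_ : IsFractionRing Bj F0)
    (f : Fin 2 → HtOne Bj),
    (∀ i, V1 F0 (f i) = W2 A N h i) ∧
    (∀ i (b : Bj), b ∈ (f i).1 ↔ (b : F0) ∈ (W2 A N h i).nonunits) ∧
    (∀ (p : HtOne Bj) (b : Bj), (b : F0) = (q : F0) → b ∈ p.1 → ∃ i, f i = p)

variable {A N h}

include hA in
theorem isFrameTwo_chartRing : IsFrameTwo A N h (chartRing (R0 A) (jK0 A N)) := by
  obtain ⟨i1, i2, i3, hqB, f, hf1, hf2, hf3, -⟩ := frame_j_two A N h hA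
  refine ⟨i1, i2, i3, f, hf1, hf3, fun p b hb hbp => ?_⟩
  refine (hf2 p).1 ?_
  rw [mem_vertFinset hqB]
  have : baseB (jK0 A N) (q0 A q) = b := by
    apply Subtype.ext
    rw [hb]
    exact algebraMap_q0 A N
  rw [this]
  exact hbp

include hA in
theorem isFrameTwo_chartRing_inv : IsFrameTwo A N h (chartRing (R0 A) (jK0 A N)⁻¹) := by
  obtain ⟨i1, i2, i3, hqB, f, hf1, hf2, hf3, -⟩ := frame_jinv_two A N h hA
  refine ⟨i1, i2, i3, f, hf1, hf3, fun p b hb hbp => ?_⟩
  refine (hf2 p).1 ?_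
  rw [mem_vertFinset hqB]
  have : baseB (jK0 A N)⁻¹ (q0 A q) = b := by
    apply Subtype.ext
    rw [hb]
    exact algebraMap_q0 A N
  rw [this]
  exact hbp

include hA in
/-- the frame on every subring equal to the chart ring `B_j` -/
theorem frame_of_eq (Bj : Subring F0) (hBj : Bj = chartRing (R0 A) (jK0 A N)) :
    IsFrameTwo A N h Bj := by
  subst hBj
  exact isFrameTwo_chartRing hA

include hA in
/-- the frame on every subring equal to the chart ring `B_{1/j}` -/
theorem frameInv_of_eq (Bj : Subring F0) (hBj : Bj = chartRing (R0 A) (jK0 A N)⁻¹) :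
    IsFrameTwo A N h Bj := by
  subst hBj
  exact isFrameTwo_chartRing_inv hA

end Fermat.Agent.GB.A4.FrameTwo

namespace Fermat.Agent.GB.A4.FrameTwo

open ModularCurve
open Fermat.Agent.GK.AL
open Fermat.Agent.GL.Val.GaussK0 Fermat.Agent.GL.Val.OrthK0
open Fermat.Agent.GL.BRingK0 Fermat.Agent.GL.BRingChart
open Fermat.Agent.GL.Red.BRingK0Inv Fermat.Agent.GL.Red.BRingK0InvChart
open Fermat.Agent.Common_helper32

attribute [local instance] Fermat.Agent.GL.Frame.InstK0.algSubringFullC

variable {A : ValuationSubring Qb} {N' : ℕ} [NeZero N'] {ℓ : ℕ} [Fact ℓ.Prime] [NeZero ℓ]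
  (h : ExactDvd ℓ (N' * ℓ)) (hA : A.LiesOverPrime ℓ)

include hA in
/-- **the two-component frame on `BRingK0 N' ℓ A h`** -/
theorem frame_BRingK0 : IsFrameTwo A (N' * ℓ) h (BRingK0 N' ℓ A h) :=
  frame_of_eq hA _ (by rw [jK0_eq_jC]; exact bRingK0_eq_chartRing h hA)

include hA in
/-- **the two-component frame on `BRingK0Inv N' ℓ A h`** -/
theorem frame_BRingK0Inv : IsFrameTwo A (N' * ℓ) h (BRingK0Inv N' ℓ A h) :=
  frameInv_of_eq hA _ (by rw [jK0_eq_jC]; exact bRingK0Inv_eq_chartRing h hA)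

end Fermat.Agent.GB.A4.FrameTwo
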