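/-
GATE-B / CASE A node A4 (helper84), file 3: **the chart step**.

`N = N' ℓ`, `ℓ ∥ N`, `F₀ = K₀(X₀(N))`, `Bj ⊂ F₀` a chart ring carrying the two-component frame
(`FrameTwo.IsFrameTwo`), `ρ : Rw₁ → F̄` the reduction along the first component (abstract: a ring
hom with kernel `𝔪(w₁)`), `C ⊂ F̄` a Dedekind coordinate ring of the first component with
`rd : Bj ↠ C` compatible with `ρ`.  For a place `Q` of `F̄` containing `C`, with centre `P` on `C`
and `𝔫 = rd⁻¹ P` (a closed point of the chart), IF the local ring `Bj_𝔫` is factorial THEN every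
`u₀ ∈ F₀ˣ` which is a unit for both vertical valuations and whose image in `ℚ̄(X₀(N))` satisfies
the Kummer condition `m ∣ div` has

  `m ∣ ord_Q (ρ u₀)`.

Proof: helper47's Kummer datum `g ^ m * u₀ * s = c` with `c, s ∈ Bj ∖ 𝔫` (the `hord` hypothesis at
the vertical primes is `u₀` being a unit there, at the horizontal primes it is helper11's
`hord_horizontal`); `g` is then a `w₁`-unit; apply `ρ` and `LocalKummer.dvd_ord_of_datum`.
-/
import Fermat.Agent.GB.A.A4.LocalKummer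
import Fermat.Agent.GB.A.A4.FrameTwo
import Fermat.Agent.GL.Frame.HorizHord

set_option autoImplicit false
set_option linter.unusedSectionVars false

noncomputable section

namespace Fermat.Agent.GB.A4.ChartStep

open ModularCurve IsLocalRing AlgebraicCurve
open Fermat.Agent.GL.KrullHeightOne Fermat.Agent.GL.Frame.HeightOne Fermat.Agent.GL.Frame.Kummer
open Fermat.Agent.GL.Val.GaussK0 Fermat.Agent.GL.Val.SecondK0 Fermat.Agent.GL.Val.L1eLower
open Fermat.Agent.GL.Local.InertiaField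
open Fermat.Agent.GJ.KumGroup
open Fermat.Agent.GL.Frame.HorizDiv Fermat.Agent.GL.Frame.HorizHord
open Fermat.Agent.GK.AL Fermat.Agent.GL.AL
open Fermat.Agent.Common_helper32
open Fermat.Agent.S24_helper6
open Fermat.Agent.GB.A4.FrameTwo Fermat.Agent.GB.A4.LocalKummer

attribute [local instance] Fermat.Agent.GL.Frame.InstK0.algSubringFullC

/-! ### Valuation-subring bookkeeping -/

section VS

variable {F : Type*} [Field F] (W : ValuationSubring F)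

/-- a nonzero element of `W` whose inverse lies in `W` has valuation `1`. -/
theorem valuation_eq_one_of_mem {x : F} (h0 : x ≠ 0) (hx : x ∈ W) (hx' : x⁻¹ ∈ W) :
    W.valuation x = 1 := by
  have h1 : W.valuation x ≤ 1 := (W.valuation_le_one_iff x).2 hx
  have h2 : W.valuation x⁻¹ ≤ 1 := (W.valuation_le_one_iff _).2 hx'
  rw [map_inv₀] at h2
  have hv0 : W.valuation x ≠ 0 := (Valuation.ne_zero_iff _).2 h0
  have h3 : 1 ≤ W.valuation x := (inv_le_one₀ (zero_lt_iff.2 hv0)).1 h2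
  exact le_antisymm h1 h3

/-- an element of valuation `1` is a unit of `W`. -/
theorem mem_of_valuation_eq_one {x : F} (hx : W.valuation x = 1) : x ∈ W ∧ x⁻¹ ∈ W := by
  refine ⟨(W.valuation_le_one_iff x).1 hx.le, (W.valuation_le_one_iff _).1 ?_⟩
  rw [map_inv₀, hx, inv_one]

/-- a unit of `W` is not in `𝔪_W`. -/
theorem not_mem_nonunits_of_mem {x : F} (h0 : x ≠ 0) (hx : x ∈ W) (hx' : x⁻¹ ∈ W) :
    x ∉ W.nonunits := by
  intro h
  have h1 : W.valuation x < 1 := (ValuationSubring.mem_nonunits_iff W).1 h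
  rw [valuation_eq_one_of_mem W h0 hx hx'] at h1
  exact lt_irrefl _ h1

/-- an element of `W` outside `𝔪_W` is a unit. -/
theorem inv_mem_of_not_mem_nonunits {x : F} (hx : x ∈ W) (hx' : x ∉ W.nonunits) : x⁻¹ ∈ W := by
  have h1 : ¬ W.valuation x < 1 := fun h => hx' ((ValuationSubring.mem_nonunits_iff W).2 h)
  have h2 : W.valuation x ≤ 1 := (W.valuation_le_one_iff x).2 hx
  have h3 : W.valuation x = 1 := le_antisymm h2 (not_lt.1 h1)
  exact (mem_of_valuation_eq_one W h3).2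

/-- `g ^ m * a = c` with `a, c` units of `W` and `m ≠ 0` ⟹ `g` is a unit of `W`. -/
theorem unit_of_pow_mul {g a c : F} {m : ℕ} (hm : m ≠ 0) (ha0 : a ≠ 0) (hc0 : c ≠ 0)
    (ha : a ∈ W) (ha' : a⁻¹ ∈ W)
    (hc : c ∈ W) (hc' : c⁻¹ ∈ W) (h : g ^ m * a = c) : g ∈ W ∧ g⁻¹ ∈ W := by
  apply mem_of_valuation_eq_one
  have h1 := congrArg W.valuation h
  rw [map_mul, map_pow, valuation_eq_one_of_mem W ha0 ha ha',
    valuation_eq_one_of_mem W hc0 hc hc', mul_one] at h1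
  rcases lt_trichotomy (W.valuation g) 1 with h2 | h2 | h2
  · exact absurd h1 (ne_of_lt (pow_lt_one₀ zero_le h2 hm))
  · exact h2
  · exact absurd h1 (ne_of_gt (one_lt_pow₀ h2 hm))

end VS

/-! ### The chart step -/

section Step

variable (A : ValuationSubring Qb) (N : ℕ) [NeZero N] {q : ℕ} (h : ExactDvd q N)
  (hA : A.LiesOverPrime q)

local notation "F0" => modularFunctionFieldFullC (K0 A) N

variable {A N h}

include hA in
/-- **the chart step** -/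
theorem dvd_ord_of_ufd {Bj : Subring F0} (hF : IsFrameTwo A N h Bj)
    (hR0 : ∀ c : K0 A, c ∈ R0 A → algebraMap (K0 A) F0 c ∈ Bj)
    {k Fb C : Type*} [Field k] [Field Fb] [Algebra k Fb] [CommRing C] [IsDedekindDomain C]
    [Algebra k C] [Algebra C Fb] [IsScalarTower k C Fb] [IsFractionRing C Fb]
    (ρ : ↥(RwK0 A N) →+* Fb)
    (hρ : ∀ x : ↥(RwK0 A N), ρ x = 0 ↔ (x : F0) ∈ (RwK0 A N).nonunits)
    (rd : Bj →+* C)
    (hrd : ∀ (b : Bj) (hb : (b : F0) ∈ RwK0 A N), algebraMap C Fb (rd b) = ρ ⟨(b : F0), hb⟩)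
    (Q : Place k Fb) (hQ : ContainsB C Q)
    (𝔫 : Ideal Bj) [𝔫.IsPrime] (h𝔫 : ∀ b : Bj, b ∈ 𝔫 ↔ rd b ∈ (primeOfPlace Q hQ).asIdeal)
    [UniqueFactorizationMonoid (Localization.AtPrime 𝔫)]
    (m : ℕ) (u₀ : F0ˣ)
    (hu1 : (u₀ : F0) ∈ RwK0 A N) (hu1' : (u₀ : F0)⁻¹ ∈ RwK0 A N)
    (hu2 : (u₀ : F0) ∈ (redData2K0 A N h).Rw) (hu2' : (u₀ : F0)⁻¹ ∈ (redData2K0 A N h).Rw)
    (hK : Units.map (mapK0Bar A N : _ →* FK N) u₀ ∈ pDivUnits Kb (FK N) m) :
    (m : ℤ) ∣ Q.ord (ρ ⟨(u₀ : F0), hu1⟩) := by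
  obtain ⟨i1, i2, i3, f, hf1, hf2, hf3⟩ := hF
  have hq : q.Prime := h.prime
  -- `q ∈ Bj`
  have hqR : ((q0 A q : R0 A) : K0 A) ∈ R0 A := (q0 A q).2
  have hqB : (q : F0) ∈ Bj := by
    have := hR0 _ hqR
    rwa [Fermat.Agent.GL.Final.H5UnifK0.algebraMap_q0] at this
  -- `Bj ⊆ W₁`
  have hBW1 : ∀ b : Bj, (b : F0) ∈ RwK0 A N := by
    intro b
    have h1 : (b : F0) ∈ V1 F0 (f 0) := algebraMap_mem_V1 (f 0) b
    rw [hf1 0] at h1
    exact h1
  -- the kernel of `rd` is the first vertical prime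
  have hW0 : W2 A N h 0 = RwK0 A N := rfl
  have hker : ∀ b : Bj, rd b = 0 ↔ b ∈ (f 0).1 := by
    intro b
    rw [hf2 0 b, hW0, ← hρ ⟨(b : F0), hBW1 b⟩, ← hrd b (hBW1 b),
      map_eq_zero_iff _ (IsFractionRing.injective C Fb)]
  have hf0𝔫 : (f 0).1 ≤ 𝔫 := by
    intro b hb
    rw [h𝔫, (hker b).2 hb]
    exact Ideal.zero_mem _
  -- the `hord` hypothesis
  have hord : ∀ 𝔭 : HtOne Bj, 𝔭.1 ≤ 𝔫 → ∃ z : F0, z ≠ 0 ∧ UnitAt 𝔭 ((u₀ : F0) * z ^ m) := by
    intro 𝔭 _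
    by_cases hq𝔭 : (⟨(q : F0), hqB⟩ : Bj) ∈ 𝔭.1
    · obtain ⟨i, rfl⟩ := hf3 𝔭 ⟨(q : F0), hqB⟩ rfl hq𝔭
      refine hord_of_unitAt m ?_
      unfold UnitAt
      rw [hf1 i]
      fin_cases i
      · exact ⟨hu1, hu1'⟩
      · exact ⟨hu2, hu2'⟩
    · refine hord_horizontal A N m u₀ hK 𝔭 ?_
      refine algebraMap_K0_mem_of_baseRing A hq hA (algebraMap (K0 A) F0) (V1 F0 𝔭) ?_ ?_
      · intro c hc
        exact algebraMap_mem_V1 𝔭 ⟨_, hR0 c hc⟩
      · have h1 := inv_algebraMap_mem_V1 (F := F0) 𝔭 hq𝔭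
        have e : algebraMap Bj F0 (⟨(q : F0), hqB⟩ : Bj) = (q : F0) := rfl
        rw [e] at h1
        exact h1
  -- the Kummer datum
  obtain ⟨g₁, c, s, hc, hs, hgcs⟩ := exists_kummer_datum_of_ufd 𝔫 (Localization.AtPrime 𝔫) m
    (u₀ : F0) u₀.ne_zero hord
  -- `m = 0`: replace `g` by `1`
  have hsW : (s : F0) ∈ RwK0 A N := hBW1 s
  have hcW : (c : F0) ∈ RwK0 A N := hBW1 c
  have hs' : (s : F0)⁻¹ ∈ RwK0 A N := by
    refine inv_mem_of_not_mem_nonunits _ hsW fun hh => hs (hf0𝔫 ((hf2 0 s).2 (hW0 ▸ hh)))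
  have hc' : (c : F0)⁻¹ ∈ RwK0 A N := by
    refine inv_mem_of_not_mem_nonunits _ hcW fun hh => hc (hf0𝔫 ((hf2 0 c).2 (hW0 ▸ hh)))
  have hs0 : (s : F0) ≠ 0 := fun h0 => hs (by
    have : s = 0 := Subtype.ext h0
    rw [this]; exact Ideal.zero_mem _)
  have hc0 : (c : F0) ≠ 0 := fun h0 => hc (by
    have : c = 0 := Subtype.ext h0
    rw [this]; exact Ideal.zero_mem _)
  obtain ⟨g, hgcs', hg0, hgW, hgW'⟩ : ∃ g : F0, g ^ m * (u₀ : F0) * (s : F0) = (c : F0) ∧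
      g ≠ 0 ∧ g ∈ RwK0 A N ∧ g⁻¹ ∈ RwK0 A N := by
    by_cases hm : m = 0
    · refine ⟨1, ?_, one_ne_zero, (RwK0 A N).one_mem, by rw [inv_one]; exact (RwK0 A N).one_mem⟩
      have := hgcs
      rw [hm, pow_zero] at this
      rw [hm, pow_zero]
      exact this
    · have hg0 : g₁ ≠ 0 := by
        intro h0
        have := hgcs
        rw [h0, zero_pow hm, zero_mul, zero_mul] at this
        exact hc0 this.symm
      refine ⟨g₁, hgcs, hg0, ?_⟩
      refine unit_of_pow_mul (RwK0 A N) hm (a := (u₀ : F0) * (s : F0)) (c := (c : F0))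
        (mul_ne_zero u₀.ne_zero hs0) hc0 ((RwK0 A N).mul_mem _ _ hu1 hsW) ?_ hcW hc' ?_
      · rw [mul_inv]
        exact (RwK0 A N).mul_mem _ _ hu1' hs'
      · rw [← mul_assoc]
        exact hgcs
  -- apply `ρ`
  have hprod : (⟨g, hgW⟩ : ↥(RwK0 A N)) ^ m * ⟨(u₀ : F0), hu1⟩ * ⟨(s : F0), hBW1 s⟩ =
      ⟨(c : F0), hBW1 c⟩ := Subtype.ext hgcs'
  have hρeq := congrArg ρ hprod
  rw [map_mul, map_mul, map_pow, ← hrd s (hBW1 s), ← hrd c (hBW1 c)] at hρeq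
  have hub : ρ ⟨(u₀ : F0), hu1⟩ ≠ 0 := by
    rw [Ne, hρ]
    exact not_mem_nonunits_of_mem _ u₀.ne_zero hu1 hu1'
  have hgb : ρ ⟨g, hgW⟩ ≠ 0 := by
    rw [Ne, hρ]
    exact not_mem_nonunits_of_mem _ hg0 hgW hgW'
  exact dvd_ord_of_datum Q hQ (fun hh => hs ((h𝔫 s).2 hh)) (fun hh => hc ((h𝔫 c).2 hh))
    hub hgb hρeq

end Step

end Fermat.Agent.GB.A4.ChartStep
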