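import Fermat.Agent.GL.Red.BRingK0InvChart
import Fermat.Agent.GL.Frame.ArithInf
import Fermat.Agent.GL.Table.KroneckerK0Low

/-!
# GATE-B / CASE A / A4 leaf (helper19, statement by helper84): a cusp lies on ONE component

`ℓ ∥ N' ℓ`, `A | ℓ`, `B∞ = BRingK0Inv N' ℓ A h` (the chart at infinity of the model of `X₀(N' ℓ)`
over `R₀`).  A prime `𝔫` of `B∞` containing `1/j` cannot contain both vertical primes
`B∞ ∩ 𝔪(w₁)` and `B∞ ∩ 𝔪(w₂)`.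

Proof: `s := j_ℓ · (1/j)^ℓ ∈ B∞` (integral over `ℤ[1/j]`, helper87's `ArithInf`);
`s - 1 = (j_ℓ - j^ℓ)(1/j)^ℓ ∈ 𝔪(w₁)` and `s^ℓ - (1/j)^(ℓ²-1) = -(j - j_ℓ^ℓ)(1/j)^(ℓ²) ∈ 𝔪(w₂)`
(the two Kronecker congruences, helper42's `KroneckerK0Low`); so `s - 1 ∈ 𝔫` and `s^ℓ ∈ 𝔫`
(as `1/j ∈ 𝔫`), whence `1 ∈ 𝔫`.
-/

set_option autoImplicit false
set_option linter.unusedSectionVars false
set_option linter.unusedVariables false
set_option linter.style.haveILetI false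

noncomputable section

namespace Fermat.Agent.GB.A4.CuspSep

open Polynomial ModularCurve IsLocalRing
open Fermat.Agent.S24 Fermat.Agent.S24_helper62
open Fermat.Agent.GJ.J1 Fermat.Agent.GJ.J1.Val
open Fermat.Agent.GK.AL Fermat.Agent.GL.AL
open Fermat.Agent.GK.Val.GaussBase Fermat.Agent.GL.Val.DegBase
open Fermat.Agent.GL.Val.GaussK0 Fermat.Agent.GL.Val.SecondK0 Fermat.Agent.GL.Val.OrthK0
open Fermat.Agent.GL.RatLiftK0
open Fermat.Agent.GL.Table.KroneckerK0Low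
open Fermat.Agent.GL.Frame.ArithInt Fermat.Agent.GL.Frame.ArithInf
open Fermat.Agent.GL.Red.BRingK0Inv Fermat.Agent.GL.Red.BRingK0InvChart
open Fermat.Agent.Common_helper32

/-- an integral relation gives integrality over every subalgebra containing `a` -/
theorem intRel_isIntegral_subalgebra {R F : Type*} [CommRing R] [Field F] [Algebra R F] {a z : F}
    (hr : IntRel a z) (T : Subalgebra R F) (ha : a ∈ T) : IsIntegral T z := by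
  obtain ⟨G, hG, hGz⟩ := hr
  refine ⟨G.map (evalInt (⟨a, ha⟩ : T)), hG.map _, ?_⟩
  rw [eval₂_map]
  have : (algebraMap T F).comp (evalInt (⟨a, ha⟩ : T)) = evalInt a := comp_evalInt _ _
  rw [this]
  exact hGz

/-- in a valuation subring, nonunit times element is a nonunit -/
theorem mul_mem_nonunits {F : Type*} [Field F] (W : ValuationSubring F) {a b : F}
    (ha : a ∈ W.nonunits) (hb : b ∈ W) : a * b ∈ W.nonunits := by
  rw [ValuationSubring.mem_nonunits_iff] at ha ⊢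
  have hb' : W.valuation b ≤ 1 := (W.valuation_le_one_iff b).2 hb
  calc W.valuation (a * b) = W.valuation a * W.valuation b := map_mul _ _ _
    _ ≤ W.valuation a * 1 := by gcongr
    _ = W.valuation a := mul_one _
    _ < 1 := ha

variable {N' : ℕ} [NeZero N'] {ℓ : ℕ} [Fact ℓ.Prime] [NeZero ℓ]
variable {A : ValuationSubring Kbar}

local notation "F0" => modularFunctionFieldFullC (K0 A) (N' * ℓ)

/-- `j₀ ≠ 0` -/
theorem jC_ne_zero_K0 : jC (N' * ℓ) (K0 A) ≠ 0 :=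
  Fermat.Agent.GL.BRingChartInv.jC_ne_zero A (N' * ℓ)

/-- **`s = j_ℓ · (1/j)^ℓ ∈ B∞`** -/
theorem sInf_mem (h : ExactDvd ℓ (N' * ℓ)) (hA : A.LiesOverPrime ℓ) :
    genC (K0 A) (R0 A) (N' * ℓ) h.dvd * (jC (N' * ℓ) (K0 A))⁻¹ ^ ℓ ∈ BRingK0Inv N' ℓ A h := by
  rw [mem_BRingK0Inv_iff_isIntegral h hA]
  have hr := intRel_inv_genC (N' * ℓ) (R0 A) h.dvd
  rw [genC_one_eq_jC (N' * ℓ) (K0 A) (R0 A)] at hr
  exact intRel_isIntegral_subalgebra hr _ (Algebra.self_mem_adjoin_singleton (R0 A) _)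

/-- **a cusp lies on one component**: a prime of `B∞` containing `1/j` does not contain both
vertical primes. -/
theorem cusp_not_both (h : ExactDvd ℓ (N' * ℓ)) (hℓN : ¬ ℓ ∣ N') (hA : A.LiesOverPrime ℓ)
    (n : Ideal (BRingK0Inv N' ℓ A h)) (hn : n.IsPrime)
    (hj : (⟨(jC (N' * ℓ) (K0 A))⁻¹, inv_jC_mem_BRingK0Inv N' ℓ A h hA⟩ :
      BRingK0Inv N' ℓ A h) ∈ n)
    (h1 : ∀ b : BRingK0Inv N' ℓ A h, (b : F0) ∈ (RwK0 A (N' * ℓ)).nonunits → b ∈ n)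
    (h2 : ∀ b : BRingK0Inv N' ℓ A h, (b : F0) ∈ ((redData2K0 A (N' * ℓ) h).Rw).nonunits →
      b ∈ n) : False := by
  have hℓ : ℓ.Prime := Fact.out
  set j : F0 := jC (N' * ℓ) (K0 A) with hjdef
  set jl : F0 := genC (K0 A) (R0 A) (N' * ℓ) h.dvd with hjldef
  have hj0 : j ≠ 0 := jC_ne_zero_K0
  set tB : BRingK0Inv N' ℓ A h := ⟨j⁻¹, inv_jC_mem_BRingK0Inv N' ℓ A h hA⟩ with htB
  set sB : BRingK0Inv N' ℓ A h := ⟨jl * j⁻¹ ^ ℓ, sInf_mem h hA⟩ with hsB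
  -- `s - 1 ∈ 𝔪(w₁)`
  have e1 : ((sB - 1 : BRingK0Inv N' ℓ A h) : F0) = (jl - j ^ ℓ) * j⁻¹ ^ ℓ := by
    show jl * j⁻¹ ^ ℓ - 1 = (jl - j ^ ℓ) * j⁻¹ ^ ℓ
    rw [sub_mul, ← mul_pow, mul_inv_cancel₀ hj0, one_pow]
  have m1 : sB - 1 ∈ n := by
    apply h1
    rw [e1]
    exact mul_mem_nonunits _ (kronLow_w1_jC A (N' * ℓ) hℓ hA h.dvd)
      (pow_mem (jC_inv_mem_RwK0 A (N' * ℓ)) ℓ)
  -- `s^ℓ - (1/j)^(ℓ²-1) ∈ 𝔪(w₂)`
  obtain ⟨k, hk⟩ : ∃ k, ℓ * ℓ = k + 1 :=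
    ⟨ℓ * ℓ - 1, (Nat.sub_add_cancel (Nat.mul_pos hℓ.pos hℓ.pos)).symm⟩
  have hk1 : k ≠ 0 := by
    rintro rfl
    have := hℓ.two_le
    nlinarith
  have e2 : ((sB ^ ℓ - tB ^ k : BRingK0Inv N' ℓ A h) : F0) = -(j - jl ^ ℓ) * j⁻¹ ^ (ℓ * ℓ) := by
    show (jl * j⁻¹ ^ ℓ) ^ ℓ - j⁻¹ ^ k = -(j - jl ^ ℓ) * j⁻¹ ^ (ℓ * ℓ)
    have e3 : j * j⁻¹ ^ (ℓ * ℓ) = j⁻¹ ^ k := by
      rw [hk, pow_succ, ← mul_assoc, mul_comm j, mul_assoc, mul_inv_cancel₀ hj0, mul_one]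
    rw [mul_pow, ← pow_mul, neg_mul, sub_mul, e3]
    ring
  have m2 : sB ^ ℓ - tB ^ k ∈ n := by
    apply h2
    rw [e2]
    exact mul_mem_nonunits _ (by
      have := kronLow_w2_jC A (N' * ℓ) hA h
      rw [ValuationSubring.mem_nonunits_iff] at this ⊢
      rwa [Valuation.map_neg])
      (pow_mem (jC_inv_mem_Rw2K0 A (N' * ℓ) h) (ℓ * ℓ))
  have m3 : tB ^ k ∈ n := Ideal.pow_mem_of_mem n hj k (Nat.pos_of_ne_zero hk1)
  have m4 : sB ^ ℓ ∈ n := by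
    have := n.add_mem m2 m3
    rwa [sub_add_cancel] at this
  have m5 : sB ∈ n := hn.mem_of_pow_mem ℓ m4
  have m6 : (1 : BRingK0Inv N' ℓ A h) ∈ n := by
    have := n.sub_mem m5 m1
    rwa [sub_sub_cancel] at this
  exact hn.ne_top ((Ideal.eq_top_iff_one n).2 m6)

end Fermat.Agent.GB.A4.CuspSep
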