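/-
GATE-B / CASE A node A4 (helper84), file 4: **the finite chart** `B_R = BRingK0 N' ℓ A h`.

* `ufd_typeI_of_frame`, `ufd_node_of_frame` : the two factoriality producers of `LocalKummer` in the
  vocabulary of `FrameTwo.IsFrameTwo` (no height-one prime appears in the statements);
* `rho1K0`, `rho1` : the reduction `red₁` on `Rw₁` over `K₀`, with values in `FresBar (N' ℓ) A`,
  resp. `FresBar N' A`; `coe_redC1K0` : compatibility with helper96's `redC1K0`;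
* **`dvd_ord_finite`** : for a place `Q` of `FresBar N' A` containing `CRing N' A` (`j~` regular
  at `Q`), `m ∣ ord_Q (red₁ u₀)` for every `u₀ ∈ F₀ˣ`, unit at both vertical valuations, with the
  Kummer condition over `ℚ̄`.  At a node the local ring is factorial by the η-route (thickness one:
  helper92 `exists_lift_pow_eq_K0_B`), elsewhere by `q`.
-/
import Fermat.Agent.GB.A.A4.ChartStep
import Fermat.Agent.GL.Reg.EtaInstK0B
import Fermat.Agent.GL.Reg.EtaInstK0Aux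
import Fermat.Agent.GL.Frame.NodeSS_K0

set_option autoImplicit false
set_option linter.unusedSectionVars false

noncomputable section

namespace Fermat.Agent.GB.A4.Finite

open ModularCurve IsLocalRing AlgebraicCurve
open Fermat.Agent.GL.KrullHeightOne Fermat.Agent.GL.Frame.HeightOne Fermat.Agent.GL.Frame.Kummer
open Fermat.Agent.GL.Val.GaussK0 Fermat.Agent.GL.Val.SecondK0 Fermat.Agent.GL.Val.L1eLower
open Fermat.Agent.GL.Val.RamK0 Fermat.Agent.GL.MultiVal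
open Fermat.Agent.GL.Local.InertiaField
open Fermat.Agent.GJ.KumGroup Fermat.Agent.GJ.J1 Fermat.Agent.GJ.J1.Val
open Fermat.Agent.GL.Frame.HorizDiv Fermat.Agent.GL.Frame.HorizHord
open Fermat.Agent.GK.AL Fermat.Agent.GL.AL Fermat.Agent.GK.QS
open Fermat.Agent.Common_helper32
open Fermat.Agent.S24_helper6
open Fermat.Agent.GL.Final.H5UnifK0
open Fermat.Agent.GB.A4.FrameTwo Fermat.Agent.GB.A4.LocalKummer Fermat.Agent.GB.A4.ChartStep

attribute [local instance] Fermat.Agent.GL.Frame.InstK0.algSubringFullC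

/-! ### Factoriality from the frame -/

section Ufd

variable (A : ValuationSubring Qb) (N : ℕ) [NeZero N] {q : ℕ} (h : ExactDvd q N)
  (hA : A.LiesOverPrime q)

local notation "F0" => modularFunctionFieldFullC (K0 A) N

variable {A N h}

include hA in
/-- **type I**: a point of the first component which is not on the second one. -/
theorem ufd_typeI_of_frame {Bj : Subring F0} (hF : IsFrameTwo A N h Bj)
    (hR0 : ∀ c : K0 A, c ∈ R0 A → algebraMap (K0 A) F0 c ∈ Bj)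
    {D : Type*} [CommRing D] [IsDedekindDomain D] (rd : Bj →+* D)
    (hsurj : Function.Surjective rd)
    (hker : ∀ b : Bj, rd b = 0 ↔ (b : F0) ∈ (RwK0 A N).nonunits)
    (𝔫 : Ideal Bj) [𝔫.IsPrime] (h1 : ∀ b : Bj, (b : F0) ∈ (RwK0 A N).nonunits → b ∈ 𝔫)
    (h2 : ∃ b : Bj, (b : F0) ∈ (redData2K0 A N h).Rw.nonunits ∧ b ∉ 𝔫) :
    UniqueFactorizationMonoid (Localization.AtPrime 𝔫) := by
  classical
  obtain ⟨i1, i2, i3, f, hf1, hf2, hf3⟩ := hF
  have hq : q.Prime := h.prime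
  have hqR : ((q0 A q : R0 A) : K0 A) ∈ R0 A := (q0 A q).2
  have hqB : (q : F0) ∈ Bj := by
    have := hR0 _ hqR
    rwa [algebraMap_q0] at this
  have hW0 : W2 A N h 0 = RwK0 A N := rfl
  have hW1 : W2 A N h 1 = (redData2K0 A N h).Rw := rfl
  have hq0 : (⟨(q : F0), hqB⟩ : Bj) ≠ 0 := fun h0 =>
    natCast_ne_zero' A N hq (congrArg Subtype.val h0)
  have hqf0 : (⟨(q : F0), hqB⟩ : Bj) ∈ (f 0).1 := by
    rw [hf2 0, hW0, ValuationSubring.mem_nonunits_iff]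
    have := (isRamified_Rw1K0 A N hq hA).valuation_q_lt_one (isUnif_R0 A hq hA)
    rwa [algebraMap_q0] at this
  refine ufd_typeI (F := F0) (Finset.univ.image f) hq0 ?_ 𝔫 hqf0 ?_ ?_ ?_ rd hsurj ?_
  · intro 𝔭 h𝔭
    obtain ⟨i, rfl⟩ := hf3 𝔭 ⟨(q : F0), hqB⟩ rfl h𝔭
    exact Finset.mem_image_of_mem f (Finset.mem_univ i)
  · intro b hb
    exact h1 b (hW0 ▸ (hf2 0 b).1 hb)
  · intro j hj hj0 hle
    obtain ⟨i, -, rfl⟩ := Finset.mem_image.1 hj
    fin_cases i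
    · exact hj0 rfl
    · obtain ⟨b, hb, hb𝔫⟩ := h2
      exact hb𝔫 (hle ((hf2 1 b).2 (hW1 ▸ hb)))
  · exact hunif_W1 A N hq hA (f 0) (hf1 0) (qB := ⟨(q : F0), hqB⟩) rfl
  · intro a
    rw [hker a, hf2 0 a, hW0]

/-- **node**: a point on both components at which the second vertical prime is "`n`-th root
principal" (the pow trick). -/
theorem ufd_node_of_frame {Bj : Subring F0} (hF : IsFrameTwo A N h Bj)
    {D : Type*} [CommRing D] [IsDedekindDomain D] (rd2 : Bj →+* D)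
    (hsurj2 : Function.Surjective rd2)
    (hker2 : ∀ b : Bj, rd2 b = 0 ↔ (b : F0) ∈ (redData2K0 A N h).Rw.nonunits)
    (𝔫 : Ideal Bj) [𝔫.IsPrime]
    (hle : ∀ b : Bj, (b : F0) ∈ (redData2K0 A N h).Rw.nonunits → b ∈ 𝔫)
    {g y c : Bj} {n : ℕ} (hn : n ≠ 0)
    (hdiv : ∀ z : Bj, (z : F0) ∈ (redData2K0 A N h).Rw.nonunits → g ∣ z ^ n)
    (hy : (y : F0) ∈ (redData2K0 A N h).Rw.nonunits) (hyg : y ^ n = g * c) (hc : c ∉ 𝔫)
    (hy0 : y ≠ 0) :
    UniqueFactorizationMonoid (Localization.AtPrime 𝔫) := by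
  obtain ⟨i1, i2, i3, f, hf1, hf2, hf3⟩ := hF
  have hW1 : W2 A N h 1 = (redData2K0 A N h).Rw := rfl
  refine ufd_node (F := F0) 𝔫 (𝔭₂ := f 1) ?_ hn ?_ ?_ hyg hc hy0 rd2 hsurj2 ?_
  · intro b hb
    exact hle b (hW1 ▸ (hf2 1 b).1 hb)
  · intro z hz
    exact hdiv z (hW1 ▸ (hf2 1 z).1 hz)
  · exact (hf2 1 y).2 (hW1 ▸ hy)
  · intro a
    rw [hker2 a, hf2 1 a, hW1]

end Ufd

/-! ### `red₁` on `Rw₁` over `K₀` -/

section Rho

variable (A : ValuationSubring Qb) (N : ℕ) [NeZero N]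

local notation "F0" => modularFunctionFieldFullC (K0 A) N

/-- `red₁` over `K₀`, with values in `FresBar N A` -/
def rho1K0 : ↥(RwK0 A N) →+* FresBar N A :=
  (redDataBar N A).red.comp
    ((mapK0Bar A N).restrict (RwK0 A N) (redDataBar N A).Rw
      fun x hx => (mem_Rw1K0_iff A N x).1 hx)

theorem rho1K0_apply (x : ↥(RwK0 A N)) :
    rho1K0 A N x = (redDataBar N A).red ⟨mapK0Bar A N (x : F0), (mem_Rw1K0_iff A N x).1 x.2⟩ :=
  rfl

theorem rho1K0_eq_zero_iff (x : ↥(RwK0 A N)) :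
    rho1K0 A N x = 0 ↔ (x : F0) ∈ (RwK0 A N).nonunits := by
  rw [rho1K0_apply, (redDataBar N A).red_eq_zero_iff, mem_nonunits_Rw1K0_iff,
    ← ValuationSubring.coe_mem_nonunits_iff]

end Rho

/-! ### The finite chart -/

section Finite

open Fermat.Agent.GL.BRingK0 Fermat.Agent.GL.BRingChart Fermat.Agent.GL.Thick
open Fermat.Agent.GL.EtaK0 Fermat.Agent.GL.EtaInstK0B Fermat.Agent.GL.EtaInstK0Aux

variable {A : ValuationSubring Qb} {N' : ℕ} [NeZero N'] {ℓ : ℕ} [Fact ℓ.Prime] [NeZero ℓ]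
  (h : ExactDvd ℓ (N' * ℓ)) (hℓN : ¬ ℓ ∣ N') (hA : A.LiesOverPrime ℓ)

local notation "F0" => modularFunctionFieldFullC (K0 A) (N' * ℓ)
local notation "kA" => IsLocalRing.ResidueField A

/-- `red₁` over `K₀` at level `N' ℓ`, with values in `FresBar N' A` (`= FresBar (N' ℓ) A`) -/
def rho1 : ↥(RwK0 A (N' * ℓ)) →+* FresBar N' A :=
  ((fresIncl N' ℓ A hℓN hA : FresBar (N' * ℓ) A →ₐ[kA] FresBar N' A) : _ →+* _).comp
    (rho1K0 A (N' * ℓ))

theorem rho1_apply (x : ↥(RwK0 A (N' * ℓ))) :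
    rho1 hℓN hA x = fresIncl N' ℓ A hℓN hA (rho1K0 A (N' * ℓ) x) := rfl

theorem rho1_eq_zero_iff (x : ↥(RwK0 A (N' * ℓ))) :
    rho1 hℓN hA x = 0 ↔ (x : F0) ∈ (RwK0 A (N' * ℓ)).nonunits := by
  have hinj : Function.Injective (fresIncl N' ℓ A hℓN hA) :=
    (fresIncl N' ℓ A hℓN hA).toRingHom.injective
  rw [rho1_apply, map_eq_zero_iff _ hinj, rho1K0_eq_zero_iff]

/-- helper96's `redC1K0` is `red₁` -/
theorem coe_redC1K0 (b : BRingK0 N' ℓ A h) (hb : (b : F0) ∈ RwK0 A (N' * ℓ)) :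
    ((redC1K0 h hℓN hA b : CRing N' A) : FresBar N' A) = rho1 hℓN hA ⟨(b : F0), hb⟩ := by
  apply Subtype.ext
  have h1 := cVal_redC1K0 h hℓN hA b
  rw [cVal_apply, Fermat.Agent.GK.QS.rho1_apply] at h1
  rw [h1, rho1_apply, coe_fresIncl, rho1K0_apply]
  rfl

variable [IsDedekindDomain (CRing N' A)] [IsFractionRing (CRing N' A) (FresBar N' A)]

set_option maxHeartbeats 1000000 in
/-- **the finite chart**: `m ∣ ord_Q (red₁ u₀)` at every place `Q` of the first component at which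
`j~` is regular. -/
theorem dvd_ord_finite (h2 : ℓ = 2 → 3 ∣ N') (h3 : ℓ = 3 → 2 ∣ N')
    (hν2 : nuTwo N' = 0) (hν3 : nuThree N' = 0)
    (Q : Place kA (FresBar N' A)) (hQ : ContainsB (CRing N' A) Q)
    (m : ℕ) (u₀ : F0ˣ)
    (hu1 : (u₀ : F0) ∈ RwK0 A (N' * ℓ)) (hu1' : (u₀ : F0)⁻¹ ∈ RwK0 A (N' * ℓ))
    (hu2 : (u₀ : F0) ∈ (redData2K0 A (N' * ℓ) h).Rw)
    (hu2' : (u₀ : F0)⁻¹ ∈ (redData2K0 A (N' * ℓ) h).Rw)
    (hK : Units.map (mapK0Bar A (N' * ℓ) : _ →* FK (N' * ℓ)) u₀ ∈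
      pDivUnits Kb (FK (N' * ℓ)) m) :
    (m : ℤ) ∣ Q.ord (rho1 hℓN hA ⟨(u₀ : F0), hu1⟩) := by
  have hF := frame_BRingK0 h hA
  have hR0 : ∀ c : K0 A, c ∈ R0 A → algebraMap (K0 A) F0 c ∈ BRingK0 N' ℓ A h :=
    fun c hc => algebraMap_mem_BRingK0 N' ℓ A h ⟨c, hc⟩
  have : ((primeOfPlace Q hQ).asIdeal).IsPrime := (primeOfPlace Q hQ).isPrime
  have h𝔫p : (Ideal.comap (redC1K0 h hℓN hA) (primeOfPlace Q hQ).asIdeal).IsPrime :=
    Ideal.comap_isPrime _ _
  have hker1 : ∀ b : BRingK0 N' ℓ A h, redC1K0 h hℓN hA b = 0 ↔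
      (b : F0) ∈ (RwK0 A (N' * ℓ)).nonunits := fun b => redC1K0_eq_zero_iff h hA hℓN
  have hufd : UniqueFactorizationMonoid
      (Localization.AtPrime (Ideal.comap (redC1K0 h hℓN hA) (primeOfPlace Q hQ).asIdeal)) := by
    by_cases hnode : ∀ b : BRingK0 N' ℓ A h,
        (b : F0) ∈ (redData2K0 A (N' * ℓ) h).Rw.nonunits →
          b ∈ Ideal.comap (redC1K0 h hℓN hA) (primeOfPlace Q hQ).asIdeal
    · -- a node: the η-route
      obtain ⟨J', hJ, hBT, -, -, -, hmap⟩ := exists_ideal_K0 h hℓN hA h2 h3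
      have hJP : J' ≤ (primeOfPlace Q hQ).asIdeal := by
        rw [← hmap, Ideal.map_le_iff_le_comap]
        intro b hb
        exact hnode b ((mem_P2K0_iff h hℓN hA).1 hb)
      obtain ⟨y, hy, c, hyg, hc⟩ := exists_lift_pow_eq_K0_B h hℓN hA h2 h3 hν2 hν3 hJ hBT
        (primeOfPlace Q hQ) hJP
      have hg0 := etaBK0_ne_zero h hℓN hA
      have hc0 : c ≠ 0 := fun h0 => hc (by rw [h0, map_zero]; exact Ideal.zero_mem _)
      have hy0 : y ≠ 0 := by
        intro h0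
        rw [h0, zero_pow (by norm_num)] at hyg
        exact mul_ne_zero hg0 hc0 hyg.symm
      refine ufd_node_of_frame hF (redC2K0 h hℓN hA) (redC2K0_surjective hℓN hA h2 h3)
        (fun b => ?_) _ hnode (n := 12) (by norm_num) (fun z hz => ?_)
        ((mem_P2K0_iff h hℓN hA).1 hy) hyg hc hy0
      · rw [← mem_P2K0_iff h hℓN hA, mem_P2K0]
      · exact etaBK0_dvd_pow h hℓN hA ((mem_P2K0_iff h hℓN hA).2 hz)
    · -- one component
      push Not at hnode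
      have hle1 : ∀ b : BRingK0 N' ℓ A h, (b : F0) ∈ (RwK0 A (N' * ℓ)).nonunits →
          b ∈ Ideal.comap (redC1K0 h hℓN hA) (primeOfPlace Q hQ).asIdeal := fun b hb => by
        rw [Ideal.mem_comap, (hker1 b).2 hb]
        exact Ideal.zero_mem _
      exact ufd_typeI_of_frame hA hF hR0 (redC1K0 h hℓN hA)
        (redC1K0_surjective h hℓN hA h2 h3) hker1
        (Ideal.comap (redC1K0 h hℓN hA) (primeOfPlace Q hQ).asIdeal) hle1 hnode
  exact dvd_ord_of_ufd hA hF hR0 (rho1 hℓN hA) (rho1_eq_zero_iff hℓN hA)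
    (redC1K0 h hℓN hA) (fun b hb => coe_redC1K0 h hℓN hA b hb) Q hQ
    (Ideal.comap (redC1K0 h hℓN hA) (primeOfPlace Q hQ).asIdeal) (fun b => Iff.rfl)
    m u₀ hu1 hu1' hu2 hu2' hK

end Finite

end Fermat.Agent.GB.A4.Finite
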