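/-
GATE-B / CASE A node A4 (helper84), file 5: **the chart at infinity** `B∞_R = BRingK0Inv N' ℓ A h`.

For a place `Q` of `FresBar N' A` containing `C∞ = CRingInv N' A` with `1/j~ ∈ 𝔪_Q` (a cusp of the
first component), `m ∣ ord_Q (red₁ u₀)`.  The centre of `Q` on `B∞_R` lies on ONE component
(helper19's `CuspSep.cusp_not_both`), so the local ring there is factorial with `q` as the
generator of the vertical prime (`Finite.ufd_typeI_of_frame`), and `ChartStep.dvd_ord_of_ufd`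
applies with `rd := redInv1K0` (helper30).
-/
import Fermat.Agent.GB.A.A4.Finite
import Fermat.Agent.GB.A.A4.CuspSep

set_option autoImplicit false
set_option linter.unusedSectionVars false

noncomputable section

namespace Fermat.Agent.GB.A4.Cusp

open ModularCurve IsLocalRing AlgebraicCurve
open Fermat.Agent.GL.KrullHeightOne Fermat.Agent.GL.Frame.HeightOne Fermat.Agent.GL.Frame.Kummer
open Fermat.Agent.GL.Val.GaussK0 Fermat.Agent.GL.Val.SecondK0 Fermat.Agent.GL.Val.L1eLower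
open Fermat.Agent.GL.Val.DegBase
open Fermat.Agent.GL.Local.InertiaField
open Fermat.Agent.GJ.KumGroup Fermat.Agent.GJ.J1 Fermat.Agent.GJ.J1.Val
open Fermat.Agent.GK.AL Fermat.Agent.GL.AL Fermat.Agent.GK.QS
open Fermat.Agent.Common_helper32
open Fermat.Agent.S24_helper6
open Fermat.Agent.GL.Thick Fermat.Agent.GL.CRingInv
open Fermat.Agent.GL.Red.BRingK0Inv Fermat.Agent.GL.Red.BRingK0InvChart
open Fermat.Agent.GB.A4.FrameTwo Fermat.Agent.GB.A4.LocalKummer Fermat.Agent.GB.A4.ChartStep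
open Fermat.Agent.GB.A4.Finite Fermat.Agent.GB.A4.CuspSep

attribute [local instance] Fermat.Agent.GL.Frame.InstK0.algSubringFullC

variable {A : ValuationSubring Qb} {N' : ℕ} [NeZero N'] {ℓ : ℕ} [Fact ℓ.Prime] [NeZero ℓ]
  (h : ExactDvd ℓ (N' * ℓ)) (hℓN : ¬ ℓ ∣ N') (hA : A.LiesOverPrime ℓ)

local notation "F0" => modularFunctionFieldFullC (K0 A) (N' * ℓ)
local notation "kA" => IsLocalRing.ResidueField A

/-- helper30's `redInv1K0` is `red₁` -/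
theorem coe_redInv1K0' (b : BRingK0Inv N' ℓ A h) (hb : (b : F0) ∈ RwK0 A (N' * ℓ)) :
    ((redInv1K0 h hℓN hA b : CRingInv N' A) : FresBar N' A) = rho1 hℓN hA ⟨(b : F0), hb⟩ := by
  apply Subtype.ext
  have h1 := cValInv_redInv1K0 h hℓN hA b
  rw [cValInv_apply, rhoInv1_apply] at h1
  rw [h1, Finite.rho1_apply, coe_fresIncl, rho1K0_apply]
  rfl

theorem mem_RwK0_of_mem_BRingK0Inv (b : BRingK0Inv N' ℓ A h) : (b : F0) ∈ RwK0 A (N' * ℓ) :=
  (mem_BRingK0Inv.1 b.2).2.1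

theorem redInv1K0_eq_zero_iff (b : BRingK0Inv N' ℓ A h) :
    redInv1K0 h hℓN hA b = 0 ↔ (b : F0) ∈ (RwK0 A (N' * ℓ)).nonunits := by
  rw [← rho1_eq_zero_iff hℓN hA ⟨(b : F0), mem_RwK0_of_mem_BRingK0Inv h b⟩,
    ← coe_redInv1K0' h hℓN hA b (mem_RwK0_of_mem_BRingK0Inv h b)]
  constructor
  · intro h0
    rw [h0]
    rfl
  · intro h0
    exact Subtype.ext h0

variable [IsDedekindDomain (CRingInv N' A)] [IsFractionRing (CRingInv N' A) (FresBar N' A)]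

set_option maxHeartbeats 1000000 in
/-- **the chart at infinity**: `m ∣ ord_Q (red₁ u₀)` at every place `Q` of the first component
which is a pole of `j~`. -/
theorem dvd_ord_cusp (h2 : ℓ = 2 → 3 ∣ N') (h3 : ℓ = 3 → 2 ∣ N')
    (Q : Place kA (FresBar N' A)) (hQ : ContainsB (CRingInv N' A) Q)
    (hcusp : (⟨(Fermat.Agent.GK.QS.jt N' A)⁻¹, inv_jt_mem_CRingInv N' A⟩ : CRingInv N' A) ∈
      (primeOfPlace Q hQ).asIdeal)
    (m : ℕ) (u₀ : F0ˣ)
    (hu1 : (u₀ : F0) ∈ RwK0 A (N' * ℓ)) (hu1' : (u₀ : F0)⁻¹ ∈ RwK0 A (N' * ℓ))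
    (hu2 : (u₀ : F0) ∈ (redData2K0 A (N' * ℓ) h).Rw)
    (hu2' : (u₀ : F0)⁻¹ ∈ (redData2K0 A (N' * ℓ) h).Rw)
    (hK : Units.map (mapK0Bar A (N' * ℓ) : _ →* FK (N' * ℓ)) u₀ ∈
      pDivUnits Kb (FK (N' * ℓ)) m) :
    (m : ℤ) ∣ Q.ord (rho1 hℓN hA ⟨(u₀ : F0), hu1⟩) := by
  have hF := frame_BRingK0Inv h hA
  have hR0 : ∀ c : K0 A, c ∈ R0 A → algebraMap (K0 A) F0 c ∈ BRingK0Inv N' ℓ A h :=
    fun c hc => algebraMap_mem_BRingK0Inv N' ℓ A h ⟨c, hc⟩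
  have : ((primeOfPlace Q hQ).asIdeal).IsPrime := (primeOfPlace Q hQ).isPrime
  have h𝔫p : (Ideal.comap (redInv1K0 h hℓN hA) (primeOfPlace Q hQ).asIdeal).IsPrime :=
    Ideal.comap_isPrime _ _
  have hker1 : ∀ b : BRingK0Inv N' ℓ A h, redInv1K0 h hℓN hA b = 0 ↔
      (b : F0) ∈ (RwK0 A (N' * ℓ)).nonunits := redInv1K0_eq_zero_iff h hℓN hA
  have hle1 : ∀ b : BRingK0Inv N' ℓ A h, (b : F0) ∈ (RwK0 A (N' * ℓ)).nonunits →
      b ∈ Ideal.comap (redInv1K0 h hℓN hA) (primeOfPlace Q hQ).asIdeal := fun b hb => by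
    rw [Ideal.mem_comap, (hker1 b).2 hb]
    exact Ideal.zero_mem _
  have hj : (⟨(jC (N' * ℓ) (K0 A))⁻¹, inv_jC_mem_BRingK0Inv N' ℓ A h hA⟩ :
      BRingK0Inv N' ℓ A h) ∈ Ideal.comap (redInv1K0 h hℓN hA) (primeOfPlace Q hQ).asIdeal := by
    rw [Ideal.mem_comap, redInv1K0_inv_jC]
    exact hcusp
  have hnot : ∃ b : BRingK0Inv N' ℓ A h,
      (b : F0) ∈ (redData2K0 A (N' * ℓ) h).Rw.nonunits ∧
        b ∉ Ideal.comap (redInv1K0 h hℓN hA) (primeOfPlace Q hQ).asIdeal := by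
    by_contra hcon
    push Not at hcon
    exact cusp_not_both h hℓN hA _ h𝔫p hj hle1 hcon
  have hufd : UniqueFactorizationMonoid
      (Localization.AtPrime (Ideal.comap (redInv1K0 h hℓN hA) (primeOfPlace Q hQ).asIdeal)) :=
    ufd_typeI_of_frame hA hF hR0 (redInv1K0 h hℓN hA)
      (redInv1K0_surjective h hℓN hA h2 h3) hker1
      (Ideal.comap (redInv1K0 h hℓN hA) (primeOfPlace Q hQ).asIdeal) hle1 hnot
  exact dvd_ord_of_ufd hA hF hR0 (rho1 hℓN hA) (rho1_eq_zero_iff hℓN hA)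
    (redInv1K0 h hℓN hA) (fun b hb => coe_redInv1K0' h hℓN hA b hb) Q hQ
    (Ideal.comap (redInv1K0 h hℓN hA) (primeOfPlace Q hQ).asIdeal) (fun b => Iff.rfl)
    m u₀ hu1 hu1' hu2 hu2' hK

end Fermat.Agent.GB.A4.Cusp
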