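/-
GATE-B / CASE A node A4 (helper84), file 7: the η-route binders at levels divisible by `4`.

* `nuTwo_eq_zero_of_four_dvd` : `4 ∣ N ⟹ nuTwo N = 0` (no square root of `-1` modulo `4`);
* `nuThree_eq_zero_of_two_dvd` : `2 ∣ N ⟹ nuThree N = 0` (helper65's `AuxPrime` at `r = 2`);
* **`nodeHyp_of_four_dvd`** : `FP.NodeHyp h A m` at level `N' ℓ` for `ℓ` odd, `ℓ ∤ N'`, `4 ∣ N'` —
  the input of helper28's descent `M·4 → M` (board 5446).
-/
import Fermat.Agent.GB.A.A4.Main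
import Fermat.Agent.GL.AuxPrime

set_option autoImplicit false

namespace Fermat.Agent.GB.A4.LevelFour

open ModularCurve
open Fermat.Agent.GK.AL
open Fermat.Agent.Common_helper32
open Fermat.Agent.GB.A.FP

/-- no square root of `-1` modulo a level divisible by `4`. -/
theorem nuTwo_eq_zero_of_four_dvd {N : ℕ} (h4 : 4 ∣ N) : nuTwo N = 0 := by
  unfold nuTwo
  rw [Nat.card_eq_zero]
  left
  constructor
  rintro ⟨x, hx⟩
  have h1 : (ZMod.castHom h4 (ZMod 4) x) ^ 2 + 1 = 0 := by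
    rw [← map_pow, ← map_one (ZMod.castHom h4 (ZMod 4)), ← map_add, hx, map_zero]
  revert h1
  generalize ZMod.castHom h4 (ZMod 4) x = y
  revert y
  decide

/-- no primitive cube root of unity modulo an even level. -/
theorem nuThree_eq_zero_of_two_dvd {N : ℕ} (h2 : 2 ∣ N) : nuThree N = 0 :=
  Fermat.Agent.GL.AuxPrime.nuThree_eq_zero_of_dvd Nat.prime_two (by norm_num) h2

variable {A : ValuationSubring Qb} {N' : ℕ} [NeZero N'] {ℓ : ℕ} [Fact ℓ.Prime] [NeZero ℓ]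

/-- **(A4) at levels `N' ℓ` with `4 ∣ N'`, `ℓ` odd.** -/
theorem nodeHyp_of_four_dvd (h : ExactDvd ℓ (N' * ℓ)) (hℓN : ¬ ℓ ∣ N')
    (hA : A.LiesOverPrime ℓ) (h4 : 4 ∣ N') (hℓ2 : ℓ ≠ 2) (m : ℕ) : NodeHyp h A m :=
  Fermat.Agent.GB.A4.Main.nodeHyp h hℓN hA (fun e => absurd e hℓ2)
    (fun _ => Dvd.dvd.trans (by norm_num) h4) (nuTwo_eq_zero_of_four_dvd h4)
    (nuThree_eq_zero_of_two_dvd (Dvd.dvd.trans (by norm_num) h4)) m

end Fermat.Agent.GB.A4.LevelFour
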