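/-
GATE-B / CASE A node A4 (helper84), file 1: the ABSTRACT local step.

`B2 ⊂ F` a noetherian integrally closed chart ring of an arithmetic surface, `𝔫` a closed point of
the special fibre.  Two producers of `UniqueFactorizationMonoid (Localization.AtPrime 𝔫)`:

* `ufd_typeI` : `𝔫` lies on exactly ONE vertical component `𝔭₀`, which is unramified (`q` generates
  the maximal ideal of `V1 F 𝔭₀`) and whose coordinate ring `B2 ⧸ 𝔭₀ ≃ D` is Dedekind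
  (helper47 `LocTypeI.ufd_localization` with `π = q`);
* `ufd_node` : `𝔫` lies on a component `𝔭₂` which is principal at `𝔫` by the POW TRICK
  (`g ∣ z ^ n` on `𝔭₂`, `y ^ n = g c`, `c ∉ 𝔫`: helper92 `PowTrick`, the `η`-route to thickness
  one) and `B2 ⧸ 𝔭₂ ≃ D` Dedekind — no hypothesis on the OTHER components through `𝔫`.

and the consumer in the prelude `Place` language:

* `dvd_ord_of_datum` : `C` a Dedekind `k`-algebra with fraction field `Fb`, `Q` a place of `Fb / k`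
  containing `C`, `P` its centre; `ḡ ^ m * ū * s̄ = c̄` with `s̄, c̄ ∈ C ∖ P` ⟹ `m ∣ ord_Q ū`.
-/
import Fermat.Agent.GL.Frame.LocTypeIq
import Fermat.Agent.GL.Alg.PrincipalCrit
import Fermat.Agent.S24_helper6.PlaceDict

set_option autoImplicit false
set_option linter.unusedSectionVars false

namespace Fermat.Agent.GB.A4.LocalKummer

open Fermat.Agent.GL Fermat.Agent.GL.KrullFrame Fermat.Agent.GL.Frame.HeightOne
  Fermat.Agent.GL.Frame.Kummer Fermat.Agent.GL.Frame.LocTypeI IsLocalRing AlgebraicCurve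

section Point

variable {F : Type*} [Field F] {B2 : Subring F} [IsFractionRing B2 F]
  [IsNoetherianRing B2] [IsIntegrallyClosed B2]

/-- **type I point**: exactly one vertical component `𝔭₀` through `𝔫`, unramified, with Dedekind
coordinate ring ⟹ the local ring at `𝔫` is factorial. -/
theorem ufd_typeI (vert : Finset (HtOne B2)) {q : B2} (hq0 : q ≠ 0)
    (hvert : ∀ 𝔭 : HtOne B2, q ∈ 𝔭.1 → 𝔭 ∈ vert) (𝔫 : Ideal B2) [𝔫.IsPrime]
    {𝔭₀ : HtOne B2} (hq𝔭₀ : q ∈ 𝔭₀.1) (h𝔭𝔫 : 𝔭₀.1 ≤ 𝔫)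
    (hbr : ∀ j ∈ vert, j ≠ 𝔭₀ → ¬ j.1 ≤ 𝔫)
    (hunif : ∀ f : F, f ∈ (V1 F 𝔭₀).nonunits → f / (q : F) ∈ V1 F 𝔭₀)
    {D : Type*} [CommRing D] [IsDedekindDomain D] (rd : B2 →+* D)
    (hsurj : Function.Surjective rd) (hker : ∀ a, rd a = 0 ↔ a ∈ 𝔭₀.1) :
    UniqueFactorizationMonoid (Localization.AtPrime 𝔫) :=
  ufd_localization (F := F) 𝔫 h𝔭𝔫 hq0 hq𝔭₀ (hgen_of_unif (F := F) hq0 hunif)
    (hother_of_hbr vert hvert 𝔫 hbr)
    (Fermat.Agent.GL.Frame.VertPrimeHtOne.hval_of_isDedekindDomain_htOne 𝔫 rd hsurj hker h𝔭𝔫)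

/-- the pow trick in fraction-free form: `𝔭₂` is generated by `y` at `𝔫`. -/
theorem exists_mul_eq_of_pow (𝔫 : Ideal B2) [𝔫.IsPrime] {P : Ideal B2} {g y c : B2} {n : ℕ}
    (hn : n ≠ 0) (hdiv : ∀ z ∈ P, g ∣ z ^ n) (hy : y ∈ P) (hyg : y ^ n = g * c) (hc : c ∉ 𝔫)
    {f : B2} (hf : f ∈ P) : ∃ s : B2, s ∉ 𝔫 ∧ ∃ b : B2, s * f = y * b := by
  have hspan := PowTrick.map_eq_span_singleton_of_pow 𝔫 (Localization.AtPrime 𝔫) hn hdiv hy hyg hc
  have hmem : algebraMap B2 (Localization.AtPrime 𝔫) f ∈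
      Ideal.span {algebraMap B2 (Localization.AtPrime 𝔫) y} := by
    rw [← hspan]; exact Ideal.mem_map_of_mem _ hf
  rw [Ideal.mem_span_singleton] at hmem
  obtain ⟨o, ho⟩ := hmem
  obtain ⟨⟨b, s⟩, hbs⟩ := IsLocalization.surj 𝔫.primeCompl o
  have hbs' : o * algebraMap B2 (Localization.AtPrime 𝔫) (s : B2) =
      algebraMap B2 (Localization.AtPrime 𝔫) b := hbs
  have hinj : Function.Injective (algebraMap B2 (Localization.AtPrime 𝔫)) :=
    IsLocalization.injective _ 𝔫.primeCompl_le_nonZeroDivisors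
  refine ⟨s, s.2, b, hinj ?_⟩
  rw [map_mul, map_mul, ho, ← hbs']
  ring

/-- **node (or any point) on a component which is principal at `𝔫` by the pow trick** and has a
Dedekind coordinate ring ⟹ the local ring at `𝔫` is factorial. -/
theorem ufd_node (𝔫 : Ideal B2) [𝔫.IsPrime] {𝔭₂ : HtOne B2} (h𝔭𝔫 : 𝔭₂.1 ≤ 𝔫)
    {g y c : B2} {n : ℕ} (hn : n ≠ 0) (hdiv : ∀ z ∈ 𝔭₂.1, g ∣ z ^ n) (hy : y ∈ 𝔭₂.1)
    (hyg : y ^ n = g * c) (hc : c ∉ 𝔫) (hy0 : y ≠ 0)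
    {D : Type*} [CommRing D] [IsDedekindDomain D] (rd : B2 →+* D)
    (hsurj : Function.Surjective rd) (hker : ∀ a, rd a = 0 ↔ a ∈ 𝔭₂.1) :
    UniqueFactorizationMonoid (Localization.AtPrime 𝔫) := by
  have key : ∀ f ∈ 𝔭₂.1, ∃ s : B2, s ∉ 𝔫 ∧ ∃ b : B2, s * f = y * b := fun f hf =>
    exists_mul_eq_of_pow 𝔫 hn hdiv hy hyg hc hf
  refine ufd_localization (F := F) 𝔫 h𝔭𝔫 hy0 hy ?_ ?_
    (Fermat.Agent.GL.Frame.VertPrimeHtOne.hval_of_isDedekindDomain_htOne 𝔫 rd hsurj hker h𝔭𝔫)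
  · intro f hf
    obtain ⟨s, hs, b, hb⟩ := key f hf
    exact ⟨s, fun h => hs (h𝔭𝔫 h), b, hb⟩
  · intro 𝔮 h𝔮 h𝔮𝔫 hy𝔮
    apply h𝔮
    symm
    apply HtOne.eq_of_le
    intro f hf
    obtain ⟨s, hs, b, hb⟩ := key f hf
    have h1 : s * f ∈ 𝔮.1 := by rw [hb]; exact 𝔮.1.mul_mem_right _ hy𝔮
    exact (𝔮.2.1.mem_or_mem h1).resolve_left fun hs' => hs (h𝔮𝔫 hs')

end Point

section Finish

open Fermat.Agent.S24_helper6

variable {k Fb C : Type*} [Field k] [Field Fb] [Algebra k Fb] [CommRing C] [IsDedekindDomain C]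
  [Algebra k C] [Algebra C Fb] [IsScalarTower k C Fb] [IsFractionRing C Fb]

/-- an element of `C` outside the centre of `Q` has order `0` at `Q`. -/
theorem ord_algebraMap_eq_zero (Q : Place k Fb) (hQ : ContainsB C Q) {s : C}
    (hs : s ∉ (primeOfPlace Q hQ).asIdeal) : Q.ord (algebraMap C Fb s) = 0 := by
  have hs0 : s ≠ 0 := fun h => hs (h ▸ Ideal.zero_mem _)
  have h1 := placeOfPrime_ord_algebraMap_nonneg (K := k) (F := Fb) (primeOfPlace Q hQ) s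
  have h2 := (placeOfPrime_ord_algebraMap_pos_iff (K := k) (F := Fb) (primeOfPlace Q hQ) hs0).not.2 hs
  rw [placeOfPrime_primeOfPlace] at h1 h2
  omega

/-- **the consumer**: `ḡ ^ m * ū * s̄ = c̄` with `s̄, c̄` outside the centre of `Q` gives
`m ∣ ord_Q ū`. -/
theorem dvd_ord_of_datum (Q : Place k Fb) (hQ : ContainsB C Q) {m : ℕ} {ub gb : Fb} {sb cb : C}
    (hs : sb ∉ (primeOfPlace Q hQ).asIdeal) (hc : cb ∉ (primeOfPlace Q hQ).asIdeal)
    (hub : ub ≠ 0) (hgb : gb ≠ 0)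
    (h : gb ^ m * ub * algebraMap C Fb sb = algebraMap C Fb cb) : (m : ℤ) ∣ Q.ord ub := by
  have hs0 : algebraMap C Fb sb ≠ 0 := fun h0 =>
    hs (((map_eq_zero_iff _ (IsFractionRing.injective C Fb)).1 h0) ▸ Ideal.zero_mem _)
  have h1 := congrArg Q.ord h
  rw [Place.ord_mul _ (mul_ne_zero (pow_ne_zero m hgb) hub) hs0,
    Place.ord_mul _ (pow_ne_zero m hgb) hub, ord_algebraMap_eq_zero Q hQ hs,
    ord_algebraMap_eq_zero Q hQ hc, ← zpow_natCast, Place.ord_zpow] at h1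
  exact ⟨-Q.ord gb, by linarith⟩

end Finish

end Fermat.Agent.GB.A4.LocalKummer
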