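/-
GATE-B / CASE A node A4 (helper84), file 6: **assembly** — `FP.NodeHyp h A m` at level `M = N' ℓ`.

`ℓ` prime, `ℓ ∤ N'`, `A | ℓ`, and the four hypotheses of the η-route (`ℓ = 2 → 3 ∣ N'`,
`ℓ = 3 → 2 ∣ N'`, `nuTwo N' = 0`, `nuThree N' = 0`).  For `m` ARBITRARY:

* `dvd_ord_rho1`  : every place of `FresBar N' A` (finite chart `Finite.dvd_ord_finite`, chart at
  infinity `Cusp.dvd_ord_cusp`, dichotomy helper19 `PlaceSplit`);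
* `dvd_ord_red1`  : the same for the places of `FresBar (N' ℓ) A` (`= FresBar N' A`) and
  `(redDataBar (N' ℓ) A).red`, `K₀`-rational shape;
* `dvd_ord_red2`  : the second component, by the Atkin–Lehner symmetry (`red₂ = red₁ ∘ W_ℓ`);
* **`nodeHyp`**   : helper28's `FP.NodeHyp h A m` VERBATIM (an `I_A`-fixed unit is `K₀`-rational:
  helper80's `RatLiftK0.exists_mapK0Bar_of_fixed`).
-/
import Fermat.Agent.GB.A.A4.Cusp
import Fermat.Agent.GB.A.A4.PlaceSplit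
import Fermat.Agent.GB.A.FP
import Fermat.Agent.GL.Red.RatLiftK0
import Fermat.Agent.GL.Thick.PlaceDictC

set_option autoImplicit false
set_option linter.unusedSectionVars false

noncomputable section

namespace Fermat.Agent.GB.A4.Main

open ModularCurve IsLocalRing AlgebraicCurve
open Fermat.Agent.S24
open Fermat.Agent.GL.Val.GaussK0 Fermat.Agent.GL.Val.SecondK0
open Fermat.Agent.GL.Local.InertiaField
open Fermat.Agent.GJ.KumGroup Fermat.Agent.GJ.J1 Fermat.Agent.GJ.J1.Val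
open Fermat.Agent.GJ.Kum.KumType
open Fermat.Agent.GK.AL Fermat.Agent.GL.AL Fermat.Agent.GK.QS
open Fermat.Agent.GK.UqKronecker
open Fermat.Agent.Common_helper32
open Fermat.Agent.S24_helper6
open Fermat.Agent.GL.Thick Fermat.Agent.GL.CRingInv
open Fermat.Agent.GB.A4.Finite Fermat.Agent.GB.A4.Cusp Fermat.Agent.GB.A4.PlaceSplit
open Fermat.Agent.GB.A.FP

/-! ### Places of equal intermediate fields -/

section Transport

variable {k L : Type*} [Field k] [Field L] [Algebra k L]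

/-- places transport along an equality of intermediate fields -/
theorem exists_place_of_eq {E1 E2 : IntermediateField k L} (e : E1 = E2) (Q : Place k E1) :
    ∃ Q' : Place k E2, ∀ x : E1,
      Q'.ord (IntermediateField.inclusion (le_of_eq e) x) = Q.ord x := by
  subst e
  refine ⟨Q, fun x => ?_⟩
  congr 1

end Transport

variable {A : ValuationSubring Qb} {N' : ℕ} [NeZero N'] {ℓ : ℕ} [Fact ℓ.Prime] [NeZero ℓ]
  (h : ExactDvd ℓ (N' * ℓ)) (hℓN : ¬ ℓ ∣ N') (hA : A.LiesOverPrime ℓ)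

local notation "F0" => modularFunctionFieldFullC (K0 A) (N' * ℓ)
local notation "kA" => IsLocalRing.ResidueField A

/-- **every place of the first component, at level `N'`** -/
theorem dvd_ord_rho1 (h2 : ℓ = 2 → 3 ∣ N') (h3 : ℓ = 3 → 2 ∣ N')
    (hν2 : nuTwo N' = 0) (hν3 : nuThree N' = 0)
    (m : ℕ) (u₀ : F0ˣ)
    (hu1 : (u₀ : F0) ∈ RwK0 A (N' * ℓ)) (hu1' : (u₀ : F0)⁻¹ ∈ RwK0 A (N' * ℓ))
    (hu2 : (u₀ : F0) ∈ (redData2K0 A (N' * ℓ) h).Rw)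
    (hu2' : (u₀ : F0)⁻¹ ∈ (redData2K0 A (N' * ℓ) h).Rw)
    (hK : Units.map (mapK0Bar A (N' * ℓ) : _ →* FK (N' * ℓ)) u₀ ∈
      pDivUnits Kb (FK (N' * ℓ)) m)
    (Q : Place kA (FresBar N' A)) :
    (m : ℤ) ∣ Q.ord (rho1 hℓN hA ⟨(u₀ : F0), hu1⟩) := by
  have : IsDedekindDomain (CRing N' A) :=
    Fermat.Agent.GK.SS.Modular.isDedekindDomain_CRing N' ℓ A hA
  have : IsFractionRing (CRing N' A) (FresBar N' A) :=
    Fermat.Agent.GL.SmallQ.isFractionRing_CRing N' A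
  have : IsDedekindDomain (CRingInv N' A) := isDedekindDomain_CRingInv N' ℓ A hA
  have : IsFractionRing (CRingInv N' A) (FresBar N' A) := isFractionRing_CRingInv N' ℓ A hA
  by_cases hj : Fermat.Agent.GK.QS.jt N' A ∈ Q.toValuationSubring
  · exact dvd_ord_finite h hℓN hA h2 h3 hν2 hν3 Q (containsB_CRing N' A Q hj) m u₀
      hu1 hu1' hu2 hu2' hK
  · obtain ⟨hB, hcusp⟩ := containsB_CRingInv N' A Q hj
    exact dvd_ord_cusp h hℓN hA h2 h3 Q hB hcusp m u₀ hu1 hu1' hu2 hu2' hK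

include hℓN hA in
/-- **the first component**, `K₀`-rational shape -/
theorem dvd_ord_red1 (h2 : ℓ = 2 → 3 ∣ N') (h3 : ℓ = 3 → 2 ∣ N')
    (hν2 : nuTwo N' = 0) (hν3 : nuThree N' = 0)
    (m : ℕ) (u₀ : F0ˣ)
    (hu1 : (u₀ : F0) ∈ RwK0 A (N' * ℓ)) (hu1' : (u₀ : F0)⁻¹ ∈ RwK0 A (N' * ℓ))
    (hu2 : (u₀ : F0) ∈ (redData2K0 A (N' * ℓ) h).Rw)
    (hu2' : (u₀ : F0)⁻¹ ∈ (redData2K0 A (N' * ℓ) h).Rw)
    (hK : Units.map (mapK0Bar A (N' * ℓ) : _ →* FK (N' * ℓ)) u₀ ∈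
      pDivUnits Kb (FK (N' * ℓ)) m)
    (hx : mapK0Bar A (N' * ℓ) (u₀ : F0) ∈ (redDataBar (N' * ℓ) A).Rw)
    (Q : Place kA (FresBar (N' * ℓ) A)) :
    (m : ℤ) ∣ Q.ord ((redDataBar (N' * ℓ) A).red ⟨mapK0Bar A (N' * ℓ) (u₀ : F0), hx⟩) := by
  obtain ⟨Q', hQ'⟩ := exists_place_of_eq (fresBar_mul_eq N' ℓ A hℓN hA) Q
  have h1 := dvd_ord_rho1 h hℓN hA h2 h3 hν2 hν3 m u₀ hu1 hu1' hu2 hu2' hK Q'
  have e : rho1 hℓN hA ⟨(u₀ : F0), hu1⟩ = IntermediateField.inclusion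
      (le_of_eq (fresBar_mul_eq N' ℓ A hℓN hA))
      ((redDataBar (N' * ℓ) A).red ⟨mapK0Bar A (N' * ℓ) (u₀ : F0), hx⟩) := rfl
  rw [e, hQ'] at h1
  exact h1

include hℓN hA in
/-- **the second component**, `K₀`-rational shape -/
theorem dvd_ord_red2 (h2 : ℓ = 2 → 3 ∣ N') (h3 : ℓ = 3 → 2 ∣ N')
    (hν2 : nuTwo N' = 0) (hν3 : nuThree N' = 0)
    (m : ℕ) (u₀ : F0ˣ)
    (hu1 : (u₀ : F0) ∈ RwK0 A (N' * ℓ)) (hu1' : (u₀ : F0)⁻¹ ∈ RwK0 A (N' * ℓ))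
    (hu2 : (u₀ : F0) ∈ (redData2K0 A (N' * ℓ) h).Rw)
    (hu2' : (u₀ : F0)⁻¹ ∈ (redData2K0 A (N' * ℓ) h).Rw)
    (hK : Units.map (mapK0Bar A (N' * ℓ) : _ →* FK (N' * ℓ)) u₀ ∈
      pDivUnits Kb (FK (N' * ℓ)) m)
    (hx : mapK0Bar A (N' * ℓ) (u₀ : F0) ∈ (redData2 (N' * ℓ) A h).Rw)
    (Q : Place kA (FresBar (N' * ℓ) A)) :
    (m : ℤ) ∣ Q.ord ((redData2 (N' * ℓ) A h).red ⟨mapK0Bar A (N' * ℓ) (u₀ : F0), hx⟩) := by
  -- `v₀ := W u₀`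
  set W := wAutK0 A (N' * ℓ) h with hW
  have hWW : ∀ x : F0, W (W x) = x := wAutK0_wAutK0 A (N' * ℓ) h
  let v₀ : F0ˣ := Units.map ((W : F0 ≃+* F0) : F0 →* F0) u₀
  have hv : (v₀ : F0) = W (u₀ : F0) := rfl
  have hvi : (v₀ : F0)⁻¹ = W ((u₀ : F0)⁻¹) := by rw [hv, map_inv₀]
  have hv1 : (v₀ : F0) ∈ RwK0 A (N' * ℓ) := hu2
  have hv1' : (v₀ : F0)⁻¹ ∈ RwK0 A (N' * ℓ) := by rw [hvi]; exact hu2'
  have hv2 : (v₀ : F0) ∈ (redData2K0 A (N' * ℓ) h).Rw := by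
    rw [mem_Rw2K0_iff_wAutK0, hv, hWW]; exact hu1
  have hv2' : (v₀ : F0)⁻¹ ∈ (redData2K0 A (N' * ℓ) h).Rw := by
    rw [mem_Rw2K0_iff_wAutK0, hvi, hWW]; exact hu1'
  have hvK : Units.map (mapK0Bar A (N' * ℓ) : _ →* FK (N' * ℓ)) v₀ ∈
      pDivUnits Kb (FK (N' * ℓ)) m := by
    have h1 := autUnits_mem (wAut h : FN (N' * ℓ) ≃ₐ[Kbar] FN (N' * ℓ)) m _ hK
    have e : autUnits (wAut h : FN (N' * ℓ) ≃ₐ[Kbar] FN (N' * ℓ))
        (Units.map (mapK0Bar A (N' * ℓ) : _ →* FK (N' * ℓ)) u₀) =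
        Units.map (mapK0Bar A (N' * ℓ) : _ →* FK (N' * ℓ)) v₀ := by
      apply Units.ext
      show wAut h (mapK0Bar A (N' * ℓ) (u₀ : F0)) = mapK0Bar A (N' * ℓ) (W (u₀ : F0))
      rw [hW, mapK0Bar_wAutK0]
    rw [e] at h1
    exact h1
  have hxv : mapK0Bar A (N' * ℓ) (v₀ : F0) ∈ (redDataBar (N' * ℓ) A).Rw := by
    rw [hv, hW, mapK0Bar_wAutK0]; exact hx
  have h1 := dvd_ord_red1 h hℓN hA h2 h3 hν2 hν3 m v₀ hv1 hv1' hv2 hv2' hvK hxv Q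
  have e : (redData2 (N' * ℓ) A h).red ⟨mapK0Bar A (N' * ℓ) (u₀ : F0), hx⟩ =
      (redDataBar (N' * ℓ) A).red ⟨mapK0Bar A (N' * ℓ) (v₀ : F0), hxv⟩ := by
    rw [red2_eq]
    congr 1
    apply Subtype.ext
    show wAut h (mapK0Bar A (N' * ℓ) (u₀ : F0)) = mapK0Bar A (N' * ℓ) (W (u₀ : F0))
    rw [hW, mapK0Bar_wAutK0]
  rw [e]
  exact h1

include hℓN hA in
/-- **(A4)** : helper28's `FP.NodeHyp` at level `N' ℓ`, under the hypotheses of the η-route. -/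
theorem nodeHyp (h2 : ℓ = 2 → 3 ∣ N') (h3 : ℓ = 3 → 2 ∣ N')
    (hν2 : nuTwo N' = 0) (hν3 : nuThree N' = 0) (m : ℕ) :
    NodeHyp h A m := by
  intro u hfix hu
  -- `u` is `K₀`-rational
  obtain ⟨x0, hx0⟩ := Fermat.Agent.GL.RatLiftK0.exists_mapK0Bar_of_fixed A (N' * ℓ)
    ((u : (FK (N' * ℓ))ˣ) : FK (N' * ℓ)) (fun σ hσ => by
      have := congrArg (fun v : (FK (N' * ℓ))ˣ => (v : FK (N' * ℓ))) (hfix σ hσ)
      exact this)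
  have hx00 : x0 ≠ 0 := by
    intro h0
    rw [h0, map_zero] at hx0
    exact (u : (FK (N' * ℓ))ˣ).ne_zero hx0.symm
  let u₀ : F0ˣ := Units.mk0 x0 hx00
  have hu₀ : (u₀ : F0) = x0 := rfl
  have hmap : mapK0Bar A (N' * ℓ) (u₀ : F0) = ((u : (FK (N' * ℓ))ˣ) : FK (N' * ℓ)) := hx0
  have hmapi : mapK0Bar A (N' * ℓ) ((u₀ : F0)⁻¹) =
      (((u : (FK (N' * ℓ))ˣ)⁻¹ : (FK (N' * ℓ))ˣ) : FK (N' * ℓ)) := by
    rw [map_inv₀, hmap, Units.val_inv_eq_inv_val]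
  have hu1 : (u₀ : F0) ∈ RwK0 A (N' * ℓ) := by
    rw [mem_Rw1K0_iff, hmap]; exact hu.1.1
  have hu1' : (u₀ : F0)⁻¹ ∈ RwK0 A (N' * ℓ) := by
    rw [mem_Rw1K0_iff, hmapi]; exact hu.1.2
  have hu2 : (u₀ : F0) ∈ (redData2K0 A (N' * ℓ) h).Rw := by
    rw [mem_Rw2K0_iff, hmap]; exact hu.2.1
  have hu2' : (u₀ : F0)⁻¹ ∈ (redData2K0 A (N' * ℓ) h).Rw := by
    rw [mem_Rw2K0_iff, hmapi]; exact hu.2.2
  have hK : Units.map (mapK0Bar A (N' * ℓ) : _ →* FK (N' * ℓ)) u₀ ∈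
      pDivUnits Kb (FK (N' * ℓ)) m := by
    have e : Units.map (mapK0Bar A (N' * ℓ) : _ →* FK (N' * ℓ)) u₀ = (u : (FK (N' * ℓ))ˣ) :=
      Units.ext hmap
    rw [e]
    exact u.2
  refine ⟨fun Q => ?_, fun Q => ?_⟩
  · have h1 := dvd_ord_red1 h hℓN hA h2 h3 hν2 hν3 m u₀ hu1 hu1' hu2 hu2' hK
      (by rw [hmap]; exact hu.1.1) Q
    have e : ((redUnit₁ hu : (FresBar (N' * ℓ) A)ˣ) : FresBar (N' * ℓ) A) =
        (redDataBar (N' * ℓ) A).red ⟨mapK0Bar A (N' * ℓ) (u₀ : F0),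
          by rw [hmap]; exact hu.1.1⟩ := by
      show (redDataBar (N' * ℓ) A).red ⟨_, _⟩ = _
      congr 1
      exact Subtype.ext hmap.symm
    rw [e]
    exact h1
  · have h1 := dvd_ord_red2 h hℓN hA h2 h3 hν2 hν3 m u₀ hu1 hu1' hu2 hu2' hK
      (by rw [hmap]; exact hu.2.1) Q
    have e : ((redUnit₂ hu : (FresBar (N' * ℓ) A)ˣ) : FresBar (N' * ℓ) A) =
        (redData2 (N' * ℓ) A h).red ⟨mapK0Bar A (N' * ℓ) (u₀ : F0),
          by rw [hmap]; exact hu.2.1⟩ := by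
      show (redData2 (N' * ℓ) A h).red ⟨_, _⟩ = _
      congr 1
      exact Subtype.ext hmap.symm
    rw [e]
    exact h1

end Fermat.Agent.GB.A4.Main
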