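import Fermat.Agent.GL.Fibre.CRingInv
import Fermat.Agent.GL.Frame.FrameInst
import Fermat.Agent.S24_helper6.PlaceDict

/-!
# GATE-B / CASE A / A4 leaf (helper19, statements by helper84): places of the good-level special
fibre are centred on one of the two charts

`k = ResidueField A`, `F̃' = FresBar N' A`, `j~ = jt N' A`, `C = CRing N' A` (integral closure of
`k[j~]`), `C∞ = CRingInv N' A` (integral closure of `k[1/j~]`).  For a place `Q` of `F̃'/k`:

* `containsB_CRing`    : `j~ ∈ O_Q ⟹ C ⊆ O_Q`;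
* `containsB_CRingInv` : `j~ ∉ O_Q ⟹ C∞ ⊆ O_Q` and `1/j~` lies in the centre of `Q` on `C∞`
  (the Dedekind / fraction-ring instances of `C∞` are instance binders: supply
  `CRingInv.isDedekindDomain_CRingInv N' ℓ A hA`, `isFractionRing_CRingInv N' ℓ A hA` by `haveI`);
* `inv_jt_mem_centre` : the same without the Dedekind instances, in `centre` form;
* `jt_mem_or` : the dichotomy.
-/

set_option autoImplicit false
set_option linter.unusedSectionVars false
set_option linter.style.haveILetI false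

noncomputable section

namespace Fermat.Agent.GB.A4.PlaceSplit

open IsLocalRing AlgebraicCurve IsDedekindDomain
open Fermat.Agent.S24 Fermat.Agent.GJ.J1 Fermat.Agent.GJ.J1.Val
open Fermat.Agent.GK.QS Fermat.Agent.GL.CRingInv
open Fermat.Agent.GL.Frame.Inst
open Fermat.Agent.S24_helper6

local notation "Qb" => AlgebraicClosure ℚ

variable (N' : ℕ) [NeZero N'] (A : ValuationSubring Qb)

local notation "kA" => IsLocalRing.ResidueField A

/-- **`j~ ∈ O_Q ⟹ C ⊆ O_Q`** -/
theorem containsB_CRing (Q : Place kA (FresBar N' A))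
    (hj : Fermat.Agent.GK.QS.jt N' A ∈ Q.toValuationSubring) :
    ContainsB (CRing N' A) Q := by
  intro b
  exact mem_valuationSubring_of_mem_icRing kA {Fermat.Agent.GK.QS.jt N' A} Q.toValuationSubring
    (fun r => Q.algebraMap_mem' r) (by rintro _ rfl; exact hj) b.2

/-- `j~ ∉ O_Q ⟹ 1/j~ ∈ O_Q` -/
theorem inv_jt_mem_of_not_mem (Q : Place kA (FresBar N' A))
    (hj : Fermat.Agent.GK.QS.jt N' A ∉ Q.toValuationSubring) :
    (Fermat.Agent.GK.QS.jt N' A)⁻¹ ∈ Q.toValuationSubring :=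
  (Q.toValuationSubring.mem_or_inv_mem _).resolve_left hj

/-- **`j~ ∉ O_Q ⟹ C∞ ⊆ O_Q`** (no Dedekind instance needed) -/
theorem containsB_CRingInv' (Q : Place kA (FresBar N' A))
    (hj : Fermat.Agent.GK.QS.jt N' A ∉ Q.toValuationSubring) :
    ContainsB (CRingInv N' A) Q := by
  intro b
  exact mem_valuationSubring_of_mem_icRing kA {(Fermat.Agent.GK.QS.jt N' A)⁻¹}
    Q.toValuationSubring (fun r => Q.algebraMap_mem' r)
    (by rintro _ rfl; exact inv_jt_mem_of_not_mem N' A Q hj) b.2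

/-- `1/j~` lies in the centre of `Q` on `C∞` when `j~ ∉ O_Q` (`centre` form) -/
theorem inv_jt_mem_centre (Q : Place kA (FresBar N' A))
    (hj : Fermat.Agent.GK.QS.jt N' A ∉ Q.toValuationSubring) :
    (⟨(Fermat.Agent.GK.QS.jt N' A)⁻¹, inv_jt_mem_CRingInv N' A⟩ : CRingInv N' A) ∈
      centre Q (containsB_CRingInv' N' A Q hj) := by
  rw [mem_centre_iff]
  rintro ⟨u, hu⟩
  have h1 : ((u : Q.toValuationSubring) : FresBar N' A) = (Fermat.Agent.GK.QS.jt N' A)⁻¹ := by
    rw [hu]; rfl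
  have hv : Q.toValuationSubring.valuation (Fermat.Agent.GK.QS.jt N' A)⁻¹ = 1 := by
    have := Q.toValuationSubring.valuation_unit u
    rwa [h1] at this
  have hv' : Q.toValuationSubring.valuation (Fermat.Agent.GK.QS.jt N' A) = 1 := by
    rw [map_inv₀, inv_eq_one] at hv
    exact hv
  exact hj ((Q.toValuationSubring.valuation_le_one_iff _).1 hv'.le)

/-- **`j~ ∉ O_Q ⟹ C∞ ⊆ O_Q` and `1/j~ ∈ 𝔭_Q`** (helper84's shape; the two instances of `C∞` are
`isDedekindDomain_CRingInv N' ℓ A hA`, `isFractionRing_CRingInv N' ℓ A hA`) -/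
theorem containsB_CRingInv [IsDedekindDomain (CRingInv N' A)]
    [IsFractionRing (CRingInv N' A) (FresBar N' A)] (Q : Place kA (FresBar N' A))
    (hj : Fermat.Agent.GK.QS.jt N' A ∉ Q.toValuationSubring) :
    ∃ hB : ContainsB (CRingInv N' A) Q,
      (⟨(Fermat.Agent.GK.QS.jt N' A)⁻¹, inv_jt_mem_CRingInv N' A⟩ : CRingInv N' A) ∈
        (primeOfPlace Q hB).asIdeal :=
  ⟨containsB_CRingInv' N' A Q hj, inv_jt_mem_centre N' A Q hj⟩

/-- the dichotomy: every place is centred on `C` or on `C∞` (at a zero of `1/j~`) -/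
theorem containsB_or (Q : Place kA (FresBar N' A)) :
    ContainsB (CRing N' A) Q ∨
      ∃ hB : ContainsB (CRingInv N' A) Q,
        (⟨(Fermat.Agent.GK.QS.jt N' A)⁻¹, inv_jt_mem_CRingInv N' A⟩ : CRingInv N' A) ∈
          centre Q hB := by
  by_cases hj : Fermat.Agent.GK.QS.jt N' A ∈ Q.toValuationSubring
  · exact Or.inl (containsB_CRing N' A Q hj)
  · exact Or.inr ⟨containsB_CRingInv' N' A Q hj, inv_jt_mem_centre N' A Q hj⟩

end Fermat.Agent.GB.A4.PlaceSplit
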