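import Fermat.Agent.GL.Final.H5UnifK0

/-!
# GATE-B / CASE A / A4 leaf (helper19, for helper84): `q` uniformises BOTH vertical valuations of
the level `N` with `q ∥ N` (`ExactDvd` spelling of the second valuation)

The `hunif` input of helper47's `GL/Frame/LocTypeIq.exists_locAt_q` / `hgen_of_unif` for the SECOND
vertical prime in the `ExactDvd` frame `(redData2K0 A N h).Rw` (helper11's `H5UnifK0.hunif_W2` is
the `HallDvd` spelling `redData2QK0`).

* `div_q_mem_RwK0`  : `x ∈ 𝔪(w₁) → x / q ∈ R_{w₁}`;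
* `div_q_mem_Rw2K0` : `x ∈ 𝔪(w₂) → x / q ∈ R_{w₂}`;
* `hunif_W2E`       : the `V1 F₀ 𝔭₀ = (redData2K0 A N h).Rw` form on any frame `Bf`, any
  presentation `qB : Bf` of `q` (twin of `H5UnifK0.hunif_W1`).
-/

set_option autoImplicit false
set_option linter.unusedSectionVars false

noncomputable section

namespace Fermat.Agent.GB.A4.TypeIInputs

open ModularCurve
open Fermat.Agent.GL.Frame.HeightOne
open Fermat.Agent.GL.Val.GaussK0 Fermat.Agent.GL.Val.SecondK0
open Fermat.Agent.GL.Final.H5UnifK0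
open Fermat.Agent.Common_helper32 Fermat.Agent.GK.AL Fermat.Agent.GL.AL

variable (A : ValuationSubring Qb) (N : ℕ) [NeZero N] {q : ℕ} (hq : q.Prime)
  (hA : (q : Qb) ∈ A.nonunits)

include hq hA in
/-- `e₁ = 1`, division form -/
theorem div_q_mem_RwK0 : ∀ x : modularFunctionFieldFullC (K0 A) N, x ∈ (RwK0 A N).nonunits →
    x / (q : modularFunctionFieldFullC (K0 A) N) ∈ RwK0 A N := by
  refine div_mem_of_dvd (RwK0 A N) (natCast_ne_zero' A N hq) ?_
  intro x hx
  obtain ⟨y, hy, hxy⟩ := exists_eq_q_mul₁ A N hq hA x hx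
  exact ⟨y, hy, by rw [hxy, algebraMap_q0]⟩

include hq hA in
/-- `e₂ = 1`, division form, `ExactDvd` spelling -/
theorem div_q_mem_Rw2K0 (h : ExactDvd q N) : ∀ x : modularFunctionFieldFullC (K0 A) N,
    x ∈ (redData2K0 A N h).Rw.nonunits →
      x / (q : modularFunctionFieldFullC (K0 A) N) ∈ (redData2K0 A N h).Rw := by
  refine div_mem_of_dvd (redData2K0 A N h).Rw (natCast_ne_zero' A N hq) ?_
  intro x hx
  obtain ⟨y, hy, hxy⟩ := exists_eq_q_mul₂ A N h hq hA x hx
  exact ⟨y, hy, by rw [hxy, algebraMap_q0]⟩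

include hq hA in
/-- **`q` uniformises `w₂`** (`ExactDvd` spelling) on any frame: the `hunif` input of
`LocTypeIq.exists_locAt_q` at the second vertical prime. -/
theorem hunif_W2E (h : ExactDvd q N)
    {Bf : Subring (modularFunctionFieldFullC (K0 A) N)}
    [IsFractionRing Bf (modularFunctionFieldFullC (K0 A) N)] [IsNoetherianRing Bf]
    [IsIntegrallyClosed Bf] (𝔭₀ : HtOne Bf)
    (hW : (V1 (modularFunctionFieldFullC (K0 A) N) 𝔭₀ :
      ValuationSubring (modularFunctionFieldFullC (K0 A) N)) = (redData2K0 A N h).Rw)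
    {qB : Bf}
    (hqB : (qB : modularFunctionFieldFullC (K0 A) N) = (q : modularFunctionFieldFullC (K0 A) N)) :
    ∀ x : modularFunctionFieldFullC (K0 A) N,
      x ∈ (V1 (modularFunctionFieldFullC (K0 A) N) 𝔭₀).nonunits →
        x / (qB : modularFunctionFieldFullC (K0 A) N) ∈
          V1 (modularFunctionFieldFullC (K0 A) N) 𝔭₀ := by
  rw [hW, hqB]
  exact div_q_mem_Rw2K0 A N hq hA h

end Fermat.Agent.GB.A4.TypeIInputs
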